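/-
S41 (level raising), leaf RED in the INTEGRAL form of the binding architecture (#1559), helper97.

From a nonzero parabolic complex eigen-homomorphism `xC : Γ₀(N) → ℂ` (the period class of the
eigenform; leaf T1) whose eigenvalues are algebraic integers congruent to integers modulo a proper
ideal `𝔪 ∋ p` of `ℤ̄`: a parabolic `x : Γ₀(N) → ℤ`, not divisible by `p`, with the same
congruences modulo `p` (the quotients being parabolic again).

Method: `Λ' := ℤ̄-span of xC(Γ)` is a nonzero finitely generated `ℤ̄`-module, so `𝔪 Λ' ≠ Λ'`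
(Nakayama); an `𝔽_p`-functional on `Λ'/𝔪Λ'`; it LIFTS to `ℤ` on the free abelian group `xC(Γ)`.
Everything else is the landed naturality `H75.heckeHom_comp`.
-/
import Mathlib
import Fermat.Prelude.Def_FLTPrelim_ModularRep
import Fermat.Agent.S16.H75.Gamma0Hecke
import Fermat.Agent.S22.H75.Gamma0FG

set_option autoImplicit false

open CongruenceSubgroup ModularCurve ModularCurve.Period
open scoped MatrixGroups

namespace Fermat.Agent.S41.H97

open Fermat.Agent.S16.H75 (heckeHom heckeHom_comp)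

/-- `ℤ̄ ⊂ ℂ`. -/
abbrev Zb : Type := integralClosure ℤ ℂ

/-- An integer-valued homomorphism all of whose values are divisible by `p` is `p` times a
homomorphism. -/
theorem exists_eq_smul_of_forall_dvd {G : Type*} [AddGroup G] (p : ℤ)
    (φ : G →+ ℤ) (h : ∀ g, p ∣ φ g) : ∃ z : G →+ ℤ, φ = p • z := by
  refine ⟨{ toFun := fun g => φ g / p, map_zero' := by simp, map_add' := ?_ }, ?_⟩
  · intro a b
    rw [map_add]
    exact Int.add_ediv_of_dvd_left (h a)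
  · ext g
    show φ g = p • (φ g / p)
    rw [smul_eq_mul, Int.mul_ediv_cancel' (h g)]

/-- A nonzero vector of an `𝔽_p`-vector space is detected by an additive functional. -/
theorem exists_addHom_ne_zero (p : ℕ) [Fact p.Prime] {V : Type*} [AddCommGroup V]
    [Module (ZMod p) V] (v : V) (hv : v ≠ 0) : ∃ f : V →+ ZMod p, f v ≠ 0 := by
  by_contra h
  have h' : ∀ f : Module.Dual (ZMod p) V, f v = 0 := by
    intro f
    by_contra hf
    exact h ⟨f.toAddMonoidHom, hf⟩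
  exact hv ((Module.forall_dual_apply_eq_zero_iff (ZMod p) v).mp h')

section Core

variable {N : ℕ} [NeZero N]

/-- The `ℤ̄`-span of the values of `xC`. -/
noncomputable def spanZb (xC : Additive (Gamma0 N) →+ ℂ) : Submodule Zb ℂ :=
  Submodule.span Zb (Set.range xC)

omit [NeZero N] in
theorem mem_spanZb (xC : Additive (Gamma0 N) →+ ℂ) (g : Additive (Gamma0 N)) :
    xC g ∈ spanZb xC :=
  Submodule.subset_span ⟨g, rfl⟩

theorem spanZb_fg (xC : Additive (Gamma0 N) →+ ℂ) : (spanZb xC).FG := by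
  classical
  have hfg : Group.FG (Gamma0 N) := Fermat.Agent.S22.H75.fg_Gamma0 N
  obtain ⟨S, hS⟩ := Group.fg_def.mp hfg
  refine ⟨S.image (fun γ => xC (Additive.ofMul γ)), ?_⟩
  apply le_antisymm
  · apply Submodule.span_mono
    intro z hz
    rw [Finset.coe_image] at hz
    obtain ⟨γ, -, rfl⟩ := hz
    exact ⟨_, rfl⟩
  · apply Submodule.span_le.mpr
    rintro _ ⟨g, rfl⟩
    have key : ∀ γ : Gamma0 N, xC (Additive.ofMul γ) ∈
        Submodule.span Zb (↑(S.image (fun γ => xC (Additive.ofMul γ))) : Set ℂ) := by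
      intro γ
      have hγ : γ ∈ Subgroup.closure (S : Set (Gamma0 N)) := by rw [hS]; trivial
      induction hγ using Subgroup.closure_induction with
      | mem x hx =>
        apply Submodule.subset_span
        rw [Finset.coe_image]
        exact ⟨x, hx, rfl⟩
      | one => rw [ofMul_one, map_zero]; exact zero_mem _
      | mul x y _ _ hx hy => rw [ofMul_mul, map_add]; exact add_mem hx hy
      | inv x _ hx => rw [ofMul_inv, map_neg]; exact neg_mem hx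
    exact key (Additive.toMul g)

/-- Nakayama: some value of `xC` is not in `𝔪 Λ'`. -/
theorem exists_notMem_smul (𝔪 : Ideal Zb) (h𝔪 : 𝔪 ≠ ⊤) (xC : Additive (Gamma0 N) →+ ℂ)
    (hx0 : xC ≠ 0) : ∃ γ : Gamma0 N, xC (Additive.ofMul γ) ∉ 𝔪 • spanZb xC := by
  by_contra hcon
  have hcon' : ∀ γ : Gamma0 N, xC (Additive.ofMul γ) ∈ 𝔪 • spanZb xC := by
    intro γ
    by_contra h
    exact hcon ⟨γ, h⟩
  have hle : spanZb xC ≤ 𝔪 • spanZb xC :=
    Submodule.span_le.mpr (by rintro _ ⟨g, rfl⟩; exact hcon' (Additive.toMul g))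
  obtain ⟨r, hr1, hr0⟩ :=
    Submodule.exists_sub_one_mem_and_smul_eq_zero_of_fg_of_le_smul 𝔪 (spanZb xC) (spanZb_fg xC) hle
  have hr : r ≠ 0 := by
    rintro rfl
    apply h𝔪
    rw [Ideal.eq_top_iff_one]
    have h1 : -((0 : Zb) - 1) ∈ 𝔪 := 𝔪.neg_mem hr1
    simpa using h1
  apply hx0
  refine AddMonoidHom.ext fun g => ?_
  have h0 := hr0 (xC g) (mem_spanZb xC g)
  have h1 : (r : ℂ) * xC g = 0 := h0
  rcases mul_eq_zero.mp h1 with h | h
  · exact absurd (Subtype.ext h) hr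
  · rw [h]; rfl

/-- An additive functional `Ψ : Λ' → 𝔽_p`, nonzero at a given `v ∉ 𝔪 Λ'`, which turns the action of
`c ∈ ℤ̄` into multiplication by `n` whenever `c ≡ n mod 𝔪`. -/
theorem exists_functional (p : ℕ) [Fact p.Prime] (𝔪 : Ideal Zb) (hpm : (p : Zb) ∈ 𝔪)
    (Λ' : Submodule Zb ℂ) (v : Λ') (hv : (v : ℂ) ∉ 𝔪 • Λ') :
    ∃ Ψ : Λ' →+ ZMod p, Ψ v ≠ 0 ∧
      ∀ (c : Zb) (n : ℤ), c - (n : Zb) ∈ 𝔪 → ∀ w : Λ', Ψ (c • w) = (n : ZMod p) * Ψ w := by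
  classical
  let M : Submodule Zb Λ' := (𝔪 • Λ').comap Λ'.subtype
  have hM : ∀ (c : Zb), c ∈ 𝔪 → ∀ w : Λ', c • w ∈ M := by
    intro c hc w
    show ((c • w : Λ') : ℂ) ∈ 𝔪 • Λ'
    exact Submodule.smul_mem_smul hc w.2
  have hkill : ∀ q : Λ' ⧸ M, p • q = 0 := by
    intro q
    obtain ⟨w, rfl⟩ := Submodule.mkQ_surjective M q
    rw [← map_nsmul, Submodule.mkQ_apply, Submodule.Quotient.mk_eq_zero]
    have h1 : p • w = (p : Zb) • w := by
      rw [Nat.cast_smul_eq_nsmul]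
    rw [h1]
    exact hM _ hpm w
  let _inst : Module (ZMod p) (Λ' ⧸ M) := AddCommGroup.zmodModule hkill
  have hv' : M.mkQ v ≠ 0 := by
    rw [Ne, Submodule.mkQ_apply, Submodule.Quotient.mk_eq_zero]
    exact hv
  obtain ⟨f, hf⟩ : ∃ f : (Λ' ⧸ M) →+ ZMod p, f (M.mkQ v) ≠ 0 :=
    exists_addHom_ne_zero p (M.mkQ v) hv'
  refine ⟨f.comp M.mkQ.toAddMonoidHom, hf, ?_⟩
  intro c n hc w
  show f (M.mkQ (c • w)) = (n : ZMod p) * f (M.mkQ w)
  have h1 : M.mkQ (c • w) = n • M.mkQ w := by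
    rw [← map_zsmul, Submodule.mkQ_apply, Submodule.mkQ_apply, Submodule.Quotient.eq]
    have h2 : c • w - n • w = (c - (n : Zb)) • w := by
      have h3 := sub_smul c (n : Zb) w
      rw [h3, Int.cast_smul_eq_zsmul]
    rw [h2]
    exact hM _ hc w
  rw [h1, map_zsmul, zsmul_eq_mul]

/-- Lifting an `𝔽_p`-valued additive map on a finitely generated subgroup of `ℂ` to `ℤ`. -/
theorem exists_int_lift (p : ℕ) (Λ : AddSubgroup ℂ) (hΛ : AddGroup.FG Λ) (g : Λ →+ ZMod p) :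
    ∃ G : Λ →+ ℤ, ∀ w, ((G w : ℤ) : ZMod p) = g w := by
  have : Module.Finite ℤ Λ := Module.Finite.iff_addGroup_fg.mpr hΛ
  have : Module.Free ℤ Λ := Module.free_of_finite_type_torsion_free'
  obtain ⟨h, hh⟩ := Module.projective_lifting_property
    ((Int.castAddHom (ZMod p)).toIntLinearMap) g.toIntLinearMap (ZMod.intCast_surjective)
  exact ⟨h.toAddMonoidHom, fun w => LinearMap.congr_fun hh w⟩

/-- **The integral eigen-homomorphism.**  From a nonzero parabolic complex eigen-homomorphism `xC`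
(eigenvalues `a ℓ`) and a proper ideal `𝔪 ∋ p` of `ℤ̄`: a parabolic `x : Γ₀(N) → ℤ`, with a value
prime to `p`, such that `T_ℓ x ≡ n x mod p` (with parabolic quotient) whenever `a ℓ` is an algebraic
integer congruent to the integer `n` modulo `𝔪`. -/
theorem exists_int_eigen (p : ℕ) [Fact p.Prime] (𝔪 : Ideal Zb) (h𝔪 : 𝔪 ≠ ⊤)
    (hpm : (p : Zb) ∈ 𝔪) (xC : Additive (Gamma0 N) →+ ℂ) (hx0 : xC ≠ 0)
    (hpar : IsParabolicHom (Gamma0 N) xC) (a : Nat.Primes → ℂ)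
    (heig : ∀ ℓ : Nat.Primes, heckeHom N ℓ ℂ xC = a ℓ • xC) :
    ∃ x : Additive (Gamma0 N) →+ ℤ, IsParabolicHom (Gamma0 N) x ∧
      (∃ γ : Gamma0 N, ¬ (p : ℤ) ∣ x (Additive.ofMul γ)) ∧
      ∀ (ℓ : Nat.Primes) (b : Zb) (n : ℤ), (b : ℂ) = a ℓ → b - (n : Zb) ∈ 𝔪 →
        ∃ z : Additive (Gamma0 N) →+ ℤ, IsParabolicHom (Gamma0 N) z ∧
          heckeHom N ℓ ℤ x - n • x = (p : ℤ) • z := by
  classical
  obtain ⟨γ0, hγ0⟩ := exists_notMem_smul 𝔪 h𝔪 xC hx0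
  -- the two lattices and the two corestrictions of `xC`
  let xL' : Additive (Gamma0 N) →+ spanZb xC := xC.codRestrict (spanZb xC) (mem_spanZb xC)
  obtain ⟨Ψ, hΨv, hΨ⟩ := exists_functional p 𝔪 hpm (spanZb xC) (xL' (Additive.ofMul γ0)) hγ0
  have hfg : Group.FG (Gamma0 N) := Fermat.Agent.S22.H75.fg_Gamma0 N
  have hΛfg : AddGroup.FG xC.range := AddGroup.fg_range xC
  let xL : Additive (Gamma0 N) →+ xC.range := xC.rangeRestrict
  let i : xC.range →+ spanZb xC :=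
    (xC.range.subtype).codRestrict (spanZb xC) (by rintro ⟨_, g, rfl⟩; exact mem_spanZb xC g)
  have hi : ∀ g, i (xL g) = xL' g := fun g => Subtype.ext rfl
  obtain ⟨G, hG⟩ := exists_int_lift p xC.range hΛfg (Ψ.comp i)
  have hcast : ∀ g, ((G (xL g) : ℤ) : ZMod p) = Ψ (xL' g) := by
    intro g
    rw [hG, AddMonoidHom.comp_apply, hi]
  -- the complex eigen-equation, read on the two lattices
  have hC : ∀ (ℓ : Nat.Primes) (g : Additive (Gamma0 N)), heckeHom N ℓ ℂ xC g = a ℓ * xC g := by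
    intro ℓ g
    rw [heig ℓ]
    rfl
  have hL' : ∀ (ℓ : Nat.Primes) (g : Additive (Gamma0 N)),
      ((heckeHom N ℓ (spanZb xC) xL' g : spanZb xC) : ℂ) = a ℓ * xC g := by
    intro ℓ g
    have h1 := heckeHom_comp N ℓ ((spanZb xC).subtype.toAddMonoidHom) xL'
    have h2 : ((spanZb xC).subtype.toAddMonoidHom).comp xL' = xC := AddMonoidHom.ext fun _ => rfl
    rw [h2] at h1
    have h3 := DFunLike.congr_fun h1 g
    rw [hC] at h3
    exact h3.symm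
  have hL : ∀ (ℓ : Nat.Primes) (g : Additive (Gamma0 N)),
      ((heckeHom N ℓ xC.range xL g : xC.range) : ℂ) = a ℓ * xC g := by
    intro ℓ g
    have h1 := heckeHom_comp N ℓ (xC.range.subtype) xL
    have h2 : (xC.range.subtype).comp xL = xC := AddMonoidHom.ext fun _ => rfl
    rw [h2] at h1
    have h3 := DFunLike.congr_fun h1 g
    rw [hC] at h3
    exact h3.symm
  refine ⟨G.comp xL, ?_, ⟨γ0, ?_⟩, ?_⟩
  · intro γ hγ
    have h0 : xL (Additive.ofMul γ) = 0 := Subtype.ext (hpar γ hγ)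
    rw [AddMonoidHom.comp_apply, h0, map_zero]
  · intro hdvd
    apply hΨv
    rw [← hcast]
    exact (ZMod.intCast_zmod_eq_zero_iff_dvd _ p).mpr hdvd
  · intro ℓ b n hb hbn
    -- divisibility of all values
    have hdiv : ∀ g, (p : ℤ) ∣ (heckeHom N ℓ ℤ (G.comp xL) - n • G.comp xL) g := by
      intro g
      rw [← ZMod.intCast_zmod_eq_zero_iff_dvd]
      have h1 := heckeHom_comp N ℓ (Int.castAddHom (ZMod p)) (G.comp xL)
      have h2 : (Int.castAddHom (ZMod p)).comp (G.comp xL) = Ψ.comp xL' :=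
        AddMonoidHom.ext fun g => hcast g
      rw [h2, heckeHom_comp N ℓ Ψ xL'] at h1
      have h3 := DFunLike.congr_fun h1 g
      have h4 : heckeHom N ℓ (spanZb xC) xL' g = b • xL' g := by
        apply Subtype.ext
        rw [hL' ℓ g, ← hb]
        rfl
      have h5 : ((heckeHom N ℓ ℤ (G.comp xL) g : ℤ) : ZMod p) = (n : ZMod p) * Ψ (xL' g) := by
        have h6 : Ψ (heckeHom N ℓ (spanZb xC) xL' g) =
            ((heckeHom N ℓ ℤ (G.comp xL) g : ℤ) : ZMod p) := h3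
        rw [← h6, h4, hΨ b n hbn]
      have h7 : (heckeHom N ℓ ℤ (G.comp xL) - n • G.comp xL) g =
          heckeHom N ℓ ℤ (G.comp xL) g - n * G (xL g) := rfl
      rw [h7, Int.cast_sub, Int.cast_mul, h5, hcast, sub_self]
    obtain ⟨z, hz⟩ := exists_eq_smul_of_forall_dvd (p : ℤ) _ hdiv
    refine ⟨z, ?_, hz⟩
    intro γ hγ
    have h0 : xL (Additive.ofMul γ) = 0 := Subtype.ext (hpar γ hγ)
    have h1 : heckeHom N ℓ xC.range xL (Additive.ofMul γ) = 0 := by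
      apply Subtype.ext
      rw [hL ℓ, hpar γ hγ, mul_zero]
      rfl
    have h2 : heckeHom N ℓ ℤ (G.comp xL) (Additive.ofMul γ) = 0 := by
      rw [heckeHom_comp N ℓ G xL, AddMonoidHom.comp_apply, h1, map_zero]
    have h3 := DFunLike.congr_fun hz (Additive.ofMul γ)
    have h4 : (heckeHom N ℓ ℤ (G.comp xL) - n • G.comp xL) (Additive.ofMul γ) =
        heckeHom N ℓ ℤ (G.comp xL) (Additive.ofMul γ) - n * G (xL (Additive.ofMul γ)) := rfl
    rw [h4, h2, h0, map_zero, mul_zero, sub_zero] at h3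
    have h5 : (p : ℤ) * z (Additive.ofMul γ) = 0 := h3.symm
    rcases mul_eq_zero.mp h5 with h | h
    · exact absurd h (by exact_mod_cast (Fact.out : p.Prime).ne_zero)
    · exact h

end Core

/-! ### Companions: reduction mod `p` of an integral congruence -/

/-- A homomorphism to `ℤ` kills the elements of finite order. -/
theorem int_hom_apply_eq_zero_of_isOfFinOrder {Γ : Type*} [Group Γ] (x : Additive Γ →+ ℤ) (γ : Γ)
    (hγ : IsOfFinOrder γ) : x (Additive.ofMul γ) = 0 := by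
  obtain ⟨n, hn, hγn⟩ := isOfFinOrder_iff_pow_eq_one.mp hγ
  have h1 : n • x (Additive.ofMul γ) = 0 := by
    rw [← map_nsmul, ← ofMul_pow, hγn, ofMul_one, map_zero]
  rcases smul_eq_zero.mp h1 with h | h
  · exact absurd h hn.ne'
  · exact h

/-- An integral congruence `T_ℓ x - n x = p z` gives the eigen-equation for `x mod p`. -/
theorem heckeHom_castAddHom_comp_eq {N : ℕ} (p : ℕ) (ℓ : Nat.Primes)
    (x z : Additive (Gamma0 N) →+ ℤ) (n : ℤ) (h : heckeHom N ℓ ℤ x - n • x = (p : ℤ) • z) :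
    heckeHom N ℓ (ZMod p) ((Int.castAddHom (ZMod p)).comp x) =
      n • (Int.castAddHom (ZMod p)).comp x := by
  rw [heckeHom_comp N ℓ (Int.castAddHom (ZMod p)) x]
  refine AddMonoidHom.ext fun g => ?_
  have h1 : heckeHom N ℓ ℤ x g - n * x g = (p : ℤ) * z g := DFunLike.congr_fun h g
  have h2 : heckeHom N ℓ ℤ x g = n * x g + (p : ℤ) * z g := by rw [← h1]; ring
  show ((heckeHom N ℓ ℤ x g : ℤ) : ZMod p) = n • ((x g : ℤ) : ZMod p)
  rw [h2, zsmul_eq_mul]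
  push_cast
  rw [ZMod.natCast_self, zero_mul, add_zero]

/-- `x ∉ p L`: a homomorphism with a value prime to `p` is not `p` times a homomorphism. -/
theorem not_exists_eq_smul_of_not_dvd {G : Type*} [AddGroup G] (p : ℤ) (x : G →+ ℤ) (g : G)
    (hg : ¬ p ∣ x g) : ¬ ∃ x' : G →+ ℤ, x = p • x' := by
  rintro ⟨x', rfl⟩
  exact hg ⟨x' g, rfl⟩

/-! ### Leaf RED -/

/-- **Leaf RED, integral form** (binding architecture #1559, statement of #1626).  Input: the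
hypotheses `hcong`, `hLR` of S41 verbatim and the output of leaf T1 (a nonzero parabolic
`xC : Γ₀(N) → ℂ` with `T_ℓ xC = a_ℓ(f) xC` for every prime `ℓ`).  Output: `ε = ± 1` and a parabolic
`x : Γ₀(N) → ℤ`, not in `p L(N)`, with `(T_ℓ - a_ℓ(W)) x ∈ p L(N)` at the good primes `ℓ ∤ N`,
`ℓ ≠ p`, and `(T_q - ε (q + 1)) x ∈ p L(N)`. -/
theorem red_int {W : WeierstrassCurve ℤ} {p N q' : ℕ} [NeZero N] (hp : p.Prime) (hq' : q'.Prime)
    (f : CuspForm (CongruenceSubgroup.Gamma0 N) 2) (𝔪 : Ideal (integralClosure ℤ ℂ))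
    (hmax : 𝔪.IsMaximal) (hpm : (p : integralClosure ℤ ℂ) ∈ 𝔪)
    (hcong : ∀ ℓ : ℕ, ℓ.Prime → W.IsGoodPrimeFor ℓ → ¬ ℓ ∣ N → ℓ ≠ p →
      ∃ a : integralClosure ℤ ℂ, (a : ℂ) = ModularFormClass.qCoeff f ℓ ∧
        a - ((W.apOfModel ℓ : ℤ) : integralClosure ℤ ℂ) ∈ 𝔪)
    (hLR : ∃ a : integralClosure ℤ ℂ, (a : ℂ) = ModularFormClass.qCoeff f q' ∧
      a ^ 2 - ((q' : integralClosure ℤ ℂ) + 1) ^ 2 ∈ 𝔪)
    (xC : Additive (Gamma0 N) →+ ℂ) (hx0 : xC ≠ 0) (hpar : IsParabolicHom (Gamma0 N) xC)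
    (heig : ∀ ℓ : Nat.Primes, heckeHom N ℓ ℂ xC = ModularFormClass.qCoeff f (ℓ : ℕ) • xC) :
    ∃ (ε : ℤ) (x : Additive (Gamma0 N) →+ ℤ), (ε = 1 ∨ ε = -1) ∧ IsParabolicHom (Gamma0 N) x ∧
      (∃ γ : Gamma0 N, ¬ (p : ℤ) ∣ x (Additive.ofMul γ)) ∧
      (∀ ℓ : Nat.Primes, W.IsGoodPrimeFor ℓ → ¬ (ℓ : ℕ) ∣ N → (ℓ : ℕ) ≠ p →
        ∃ z : Additive (Gamma0 N) →+ ℤ, IsParabolicHom (Gamma0 N) z ∧
          heckeHom N ℓ ℤ x - W.apOfModel ℓ • x = (p : ℤ) • z) ∧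
      ∃ z : Additive (Gamma0 N) →+ ℤ, IsParabolicHom (Gamma0 N) z ∧
        heckeHom N ⟨q', hq'⟩ ℤ x - (ε * ((q' : ℤ) + 1)) • x = (p : ℤ) • z := by
  have : Fact p.Prime := ⟨hp⟩
  obtain ⟨x, hxpar, hxnd, hx⟩ := exists_int_eigen p 𝔪 hmax.ne_top hpm xC hx0 hpar
    (fun ℓ => ModularFormClass.qCoeff f (ℓ : ℕ)) heig
  obtain ⟨aq, haq, haq2⟩ := hLR
  have hfac : (aq - ((q' : Zb) + 1)) * (aq + ((q' : Zb) + 1)) ∈ 𝔪 := by
    have h1 : (aq - ((q' : Zb) + 1)) * (aq + ((q' : Zb) + 1)) = aq ^ 2 - ((q' : Zb) + 1) ^ 2 := by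
      ring
    rw [h1]
    exact haq2
  have hε : ∃ ε : ℤ, (ε = 1 ∨ ε = -1) ∧ aq - ((ε * ((q' : ℤ) + 1) : ℤ) : Zb) ∈ 𝔪 := by
    rcases hmax.isPrime.mem_or_mem hfac with h | h
    · refine ⟨1, Or.inl rfl, ?_⟩
      have h1 : aq - (((1 : ℤ) * ((q' : ℤ) + 1) : ℤ) : Zb) = aq - ((q' : Zb) + 1) := by
        push_cast; ring
      rw [h1]
      exact h
    · refine ⟨-1, Or.inr rfl, ?_⟩
      have h1 : aq - (((-1 : ℤ) * ((q' : ℤ) + 1) : ℤ) : Zb) = aq + ((q' : Zb) + 1) := by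
        push_cast; ring
      rw [h1]
      exact h
  obtain ⟨ε, hε1, hε2⟩ := hε
  refine ⟨ε, x, hε1, hxpar, hxnd, ?_, ?_⟩
  · intro ℓ hgood hℓN hℓp
    obtain ⟨b, hb, hbn⟩ := hcong ℓ ℓ.2 hgood hℓN hℓp
    exact hx ℓ b (W.apOfModel ℓ) hb hbn
  · exact hx ⟨q', hq'⟩ aq _ haq hε2

/-- **Leaf RED, `𝔽_p` form** (= the conclusion of `red` in helper40's top skeleton, with the
output of leaf T1 as input): the reduction mod `p` of the `x` of `red_int`. -/
theorem red_of_T1 {W : WeierstrassCurve ℤ} {p N q' : ℕ} [NeZero N] (hp : p.Prime) (hq' : q'.Prime)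
    (f : CuspForm (CongruenceSubgroup.Gamma0 N) 2) (𝔪 : Ideal (integralClosure ℤ ℂ))
    (hmax : 𝔪.IsMaximal) (hpm : (p : integralClosure ℤ ℂ) ∈ 𝔪)
    (hcong : ∀ ℓ : ℕ, ℓ.Prime → W.IsGoodPrimeFor ℓ → ¬ ℓ ∣ N → ℓ ≠ p →
      ∃ a : integralClosure ℤ ℂ, (a : ℂ) = ModularFormClass.qCoeff f ℓ ∧
        a - ((W.apOfModel ℓ : ℤ) : integralClosure ℤ ℂ) ∈ 𝔪)
    (hLR : ∃ a : integralClosure ℤ ℂ, (a : ℂ) = ModularFormClass.qCoeff f q' ∧
      a ^ 2 - ((q' : integralClosure ℤ ℂ) + 1) ^ 2 ∈ 𝔪)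
    (xC : Additive (Gamma0 N) →+ ℂ) (hx0 : xC ≠ 0) (hpar : IsParabolicHom (Gamma0 N) xC)
    (heig : ∀ ℓ : Nat.Primes, heckeHom N ℓ ℂ xC = ModularFormClass.qCoeff f (ℓ : ℕ) • xC) :
    ∃ (ε : ℤ) (x : Additive (Gamma0 N) →+ ZMod p), (ε = 1 ∨ ε = -1) ∧ x ≠ 0 ∧
      IsParabolicHom (Gamma0 N) x ∧
      (∀ γ : Gamma0 N, IsOfFinOrder γ → x (Additive.ofMul γ) = 0) ∧
      (∀ ℓ : Nat.Primes, W.IsGoodPrimeFor ℓ → ¬ (ℓ : ℕ) ∣ N → (ℓ : ℕ) ≠ p →
        heckeHom N ℓ (ZMod p) x = W.apOfModel ℓ • x) ∧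
      heckeHom N ⟨q', hq'⟩ (ZMod p) x = (ε * ((q' : ℤ) + 1)) • x := by
  obtain ⟨ε, x, hε, hxpar, ⟨γ0, hγ0⟩, hgood, z, -, hz⟩ :=
    red_int (W := W) hp hq' f 𝔪 hmax hpm hcong hLR xC hx0 hpar heig
  refine ⟨ε, (Int.castAddHom (ZMod p)).comp x, hε, ?_, ?_, ?_, ?_, ?_⟩
  · intro h0
    apply hγ0
    rw [← ZMod.intCast_zmod_eq_zero_iff_dvd]
    exact DFunLike.congr_fun h0 (Additive.ofMul γ0)
  · intro γ hγ
    show ((x (Additive.ofMul γ) : ℤ) : ZMod p) = 0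
    rw [hxpar γ hγ, Int.cast_zero]
  · intro γ hγ
    show ((x (Additive.ofMul γ) : ℤ) : ZMod p) = 0
    rw [int_hom_apply_eq_zero_of_isOfFinOrder x γ hγ, Int.cast_zero]
  · intro ℓ hℓgood hℓN hℓp
    obtain ⟨z', -, hz'⟩ := hgood ℓ hℓgood hℓN hℓp
    exact heckeHom_castAddHom_comp_eq p ℓ x z' _ hz'
  · exact heckeHom_castAddHom_comp_eq p ⟨q', hq'⟩ x z _ hz

end Fermat.Agent.S41.H97
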